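/-
Lib/Unif (architect helper33): complex uniformisation of elliptic curves and analytic Velu.
File `AddX/Good`.  For fixed `w ∉ Λ` the function `h z = S z ^ 2 - ℘ (z + w) - ℘ z`,
`S z = (℘' (z + w) + ℘' z) / (2 (℘ (z + w) - ℘ z))` (= the `x`-coordinate of `π (z + w) ⊖ π z`)
has derivative `0` on the complement of a countable closed set, and tends to `℘ w` at `0`.
-/
import Fermat.Agent.Lib.Unif.Inj

set_option autoImplicit false

noncomputable section

namespace Fermat.Agent.Lib.Unif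

open Filter Topology

variable (L : PeriodPair)

def slopeS (w z : ℂ) : ℂ :=
  (L.derivWeierstrassP (z + w) + L.derivWeierstrassP z) /
    (2 * (L.weierstrassP (z + w) - L.weierstrassP z))

def hfun (w z : ℂ) : ℂ := slopeS L w z ^ 2 - L.weierstrassP (z + w) - L.weierstrassP z

def goodSet (w : ℂ) : Set ℂ := {z | z ∉ L.lattice ∧ z + w ∉ L.lattice ∧ 2 * z + w ∉ L.lattice}

theorem isOpen_goodSet (w : ℂ) : IsOpen (goodSet L w) := by
  have h0 : IsOpen ((L.lattice : Set ℂ)ᶜ) := L.isClosed_lattice.isOpen_compl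
  have h1 : IsOpen {z : ℂ | z ∉ L.lattice} := h0
  have h2 : IsOpen {z : ℂ | z + w ∉ L.lattice} :=
    h0.preimage (f := fun z : ℂ => z + w) (by fun_prop)
  have h3 : IsOpen {z : ℂ | 2 * z + w ∉ L.lattice} :=
    h0.preimage (f := fun z : ℂ => 2 * z + w) (by fun_prop)
  exact h1.inter (h2.inter h3)

theorem isPreconnected_goodSet (w : ℂ) : IsPreconnected (goodSet L w) := by
  have hc := countable_lattice L
  have hs : ((L.lattice : Set ℂ) ∪ ((fun l : ℂ => l - w) '' (L.lattice : Set ℂ)) ∪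
      ((fun l : ℂ => (l - w) / 2) '' (L.lattice : Set ℂ))).Countable :=
    (hc.union (hc.image _)).union (hc.image _)
  have he : goodSet L w = ((L.lattice : Set ℂ) ∪ ((fun l : ℂ => l - w) '' (L.lattice : Set ℂ)) ∪
      ((fun l : ℂ => (l - w) / 2) '' (L.lattice : Set ℂ)))ᶜ := by
    ext z
    simp only [goodSet, Set.mem_setOf_eq, Set.mem_compl_iff, Set.mem_union, Set.mem_image,
      SetLike.mem_coe, not_or]
    constructor
    · rintro ⟨h1, h2, h3⟩
      refine ⟨⟨h1, ?_⟩, ?_⟩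
      · rintro ⟨l, hl, rfl⟩
        exact h2 (by simpa using hl)
      · rintro ⟨l, hl, rfl⟩
        apply h3
        have : 2 * ((l - w) / 2) + w = l := by ring
        rwa [this]
    · rintro ⟨⟨h1, h2⟩, h3⟩
      refine ⟨h1, fun h => h2 ⟨z + w, h, by ring⟩, fun h => h3 ⟨2 * z + w, h, by ring⟩⟩
  rw [he]
  exact isPreconnected_compl_of_countable hs

/-- `goodSet` contains a punctured neighbourhood of `0`. -/
theorem goodSet_mem_nhdsNE {w : ℂ} (hw : w ∉ L.lattice) : goodSet L w ∈ 𝓝[≠] (0 : ℂ) := by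
  have h0 : IsOpen ((L.lattice : Set ℂ)ᶜ) := L.isClosed_lattice.isOpen_compl
  have h2 : {z : ℂ | z + w ∉ L.lattice} ∈ 𝓝 (0 : ℂ) :=
    (h0.preimage (f := fun z : ℂ => z + w) (by fun_prop)).mem_nhds
      (by simpa using hw)
  have h3 : {z : ℂ | 2 * z + w ∉ L.lattice} ∈ 𝓝 (0 : ℂ) :=
    (h0.preimage (f := fun z : ℂ => 2 * z + w) (by fun_prop)).mem_nhds
      (by simpa using hw)
  have h1 := L.compl_lattice_sdiff_singleton_mem_nhds 0
  rw [mem_nhdsWithin]
  obtain ⟨u, hu, huo, h0u⟩ := mem_nhds_iff.1 (Filter.inter_mem h1 (Filter.inter_mem h2 h3))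
  refine ⟨u, huo, h0u, ?_⟩
  rintro z ⟨hzu, hz0⟩
  obtain ⟨a, b, c⟩ := hu hzu
  refine ⟨fun h => a ⟨h, hz0⟩, b, c⟩

theorem wp_ne_of_mem_goodSet {w z : ℂ} (hw : w ∉ L.lattice) (hz : z ∈ goodSet L w) :
    L.weierstrassP (z + w) ≠ L.weierstrassP z := by
  obtain ⟨h1, h2, h3⟩ := hz
  intro h
  rcases (wp_eq_iff L h2 h1).1 h with h | h
  · exact hw (by simpa using h)
  · apply h3
    have : 2 * z + w = z + w + z := by ring
    rwa [this]

end Fermat.Agent.Lib.Unif

end
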