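/-
Lib/Unif (architect helper33): complex uniformisation of elliptic curves and analytic Velu.
File `AddX/Deriv`: `h' = 0`.
-/
import Fermat.Agent.Lib.Unif.AddX.Good

set_option autoImplicit false

noncomputable section

namespace Fermat.Agent.Lib.Unif

open Filter Topology

variable (L : PeriodPair)

/-- pure algebra: the derivative of the slope.  -/
theorem slope_deriv_algebra {A A1 P P1 g2 g3 : ℂ} (hA : A1 ^ 2 = 4 * A ^ 3 - g2 * A - g3)
    (hP : P1 ^ 2 = 4 * P ^ 3 - g2 * P - g3) (h : A ≠ P) :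
    (((6 * A ^ 2 - g2 / 2) + (6 * P ^ 2 - g2 / 2)) * (2 * (A - P)) -
      (A1 + P1) * (2 * (A1 - P1))) / (2 * (A - P)) ^ 2 = A - P := by
  have h' : A - P ≠ 0 := sub_ne_zero.2 h
  rw [div_eq_iff (pow_ne_zero 2 (mul_ne_zero two_ne_zero h'))]
  linear_combination (-2) * hA + 2 * hP

theorem hasDerivAt_slopeS {w z : ℂ} (hw : w ∉ L.lattice) (hz : z ∈ goodSet L w) :
    HasDerivAt (slopeS L w) (L.weierstrassP (z + w) - L.weierstrassP z) z := by
  have hne := wp_ne_of_mem_goodSet L hw hz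
  obtain ⟨hz1, hz2, -⟩ := hz
  have hden : 2 * (L.weierstrassP (z + w) - L.weierstrassP z) ≠ 0 :=
    mul_ne_zero two_ne_zero (sub_ne_zero.2 hne)
  have h1 : HasDerivAt (fun t => L.weierstrassP (t + w)) (L.derivWeierstrassP (z + w)) z :=
    (hasDerivAt_wp L hz2).comp_add_const z w
  have h2 : HasDerivAt (fun t => L.derivWeierstrassP (t + w)) (wp2 L (z + w)) z :=
    (hasDerivAt_wp' L hz2).comp_add_const z w
  have hnum := h2.add (hasDerivAt_wp' L hz1)
  have hd := (h1.sub (hasDerivAt_wp L hz1)).const_mul 2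
  have hq := hnum.div hd hden
  have halg := slope_deriv_algebra (L.derivWeierstrassP_sq (z + w) hz2)
    (L.derivWeierstrassP_sq z hz1) hne
  rw [← halg]
  exact hq

theorem hasDerivAt_hfun {w z : ℂ} (hw : w ∉ L.lattice) (hz : z ∈ goodSet L w) :
    HasDerivAt (hfun L w) 0 z := by
  have hS := hasDerivAt_slopeS L hw hz
  have hne := wp_ne_of_mem_goodSet L hw hz
  obtain ⟨hz1, hz2, -⟩ := hz
  have h1 : HasDerivAt (fun t => L.weierstrassP (t + w)) (L.derivWeierstrassP (z + w)) z :=
    (hasDerivAt_wp L hz2).comp_add_const z w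
  have h := ((hS.pow 2).sub h1).sub (hasDerivAt_wp L hz1)
  have h' : L.weierstrassP (z + w) - L.weierstrassP z ≠ 0 := sub_ne_zero.2 hne
  have h0 : (2 : ℕ) * slopeS L w z ^ (2 - 1) * (L.weierstrassP (z + w) - L.weierstrassP z) -
      L.derivWeierstrassP (z + w) - L.derivWeierstrassP z = 0 := by
    unfold slopeS
    generalize L.weierstrassP (z + w) - L.weierstrassP z = d at h'
    rw [Nat.cast_ofNat, show 2 - 1 = 1 from rfl, pow_one, mul_assoc, div_mul_eq_mul_div,
      mul_div_assoc', mul_comm 2 d, mul_comm 2 _, mul_assoc, mul_div_assoc,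
      div_self (mul_ne_zero h' two_ne_zero)]
    ring
  rw [h0] at h
  exact h

end Fermat.Agent.Lib.Unif

end
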