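/-
Lib/Unif (architect helper33): complex uniformisation of elliptic curves and analytic Velu.
File `AddX/Limit`: `h → ℘ w` at `0`.
-/
import Fermat.Agent.Lib.Unif.AddX.Good

set_option autoImplicit false

noncomputable section

namespace Fermat.Agent.Lib.Unif

open Filter Topology

variable (L : PeriodPair)

/-- pure algebra behind the limit: with `P = z⁻² + e`, `P1 = -2 z⁻³ + e1`. -/
theorem hfun_limit_algebra {z A A1 e e1 : ℂ} (hz : z ≠ 0) (hd : 1 - z ^ 2 * (A - e) ≠ 0) :
    ((A1 + (-2 / z ^ 3 + e1)) / (2 * (A - (1 / z ^ 2 + e)))) ^ 2 - A - (1 / z ^ 2 + e) =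
      ((A - e) - z * (e1 + A1) / 2) * (2 - z ^ 3 * (e1 + A1) / 2 - z ^ 2 * (A - e)) /
        (1 - z ^ 2 * (A - e)) ^ 2 - A - e := by
  have h2 : A - (1 / z ^ 2 + e) = -(1 - z ^ 2 * (A - e)) / z ^ 2 := by
    field_simp; ring
  rw [h2]
  field_simp
  ring

/-- (`PeriodPair.weierstrassPExcept_def`, `derivWeierstrassPExcept_def` at `l₀ = 0`: near `0`,
`℘ z = 1 / z ^ 2 + e z`, `℘' z = -2 / z ^ 3 + e1 z` with `e = ℘[L - 0]`, `e1 = ℘'[L - 0]` analytic
at `0` and `e 0 = 0`; `A = ℘ (z + w)`, `A1 = ℘' (z + w)` are continuous at `z = 0`.  The right hand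
side of `hfun_limit_algebra` is continuous at `0` with value `2 ℘ w - ℘ w`.) -/
theorem tendsto_hfun {w : ℂ} (hw : w ∉ L.lattice) :
    Tendsto (hfun L w) (𝓝[≠] 0) (𝓝 (L.weierstrassP w)) := by
  set e : ℂ → ℂ := L.weierstrassPExcept 0 with he
  set e1 : ℂ → ℂ := L.derivWeierstrassPExcept 0 with he1
  set A : ℂ → ℂ := fun z => L.weierstrassP (z + w) with hA
  set A1 : ℂ → ℂ := fun z => L.derivWeierstrassP (z + w) with hA1
  have ce : ContinuousAt e 0 := (L.analyticAt_weierstrassPExcept 0).continuousAt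
  have ce1 : ContinuousAt e1 0 := (L.analyticAt_derivWeierstrassPExcept 0).continuousAt
  have hw' : (0 : ℂ) + w ∈ (L.lattice : Set ℂ)ᶜ := by simpa using hw
  have cA : ContinuousAt A 0 :=
    ContinuousAt.comp (f := fun z : ℂ => z + w) (g := L.weierstrassP)
      (L.analyticOnNhd_weierstrassP _ hw').continuousAt (by fun_prop)
  have cA1 : ContinuousAt A1 0 :=
    ContinuousAt.comp (f := fun z : ℂ => z + w) (g := L.derivWeierstrassP)
      (L.analyticOnNhd_derivWeierstrassP _ hw').continuousAt (by fun_prop)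
  have cid : ContinuousAt (fun z : ℂ => z) 0 := continuousAt_id
  have e0 : e 0 = 0 := L.weierstrassPExcept_zero 0
  have A0 : A 0 = L.weierstrassP w := by simp [hA]
  set D : ℂ → ℂ := fun z => 1 - z ^ 2 * (A z - e z) with hD
  have cD : ContinuousAt D 0 := continuousAt_const.sub ((cid.pow 2).mul (cA.sub ce))
  have D0 : D 0 = 1 := by simp [hD]
  set R : ℂ → ℂ := fun z =>
    ((A z - e z) - z * (e1 z + A1 z) / 2) *
      (2 - z ^ 3 * (e1 z + A1 z) / 2 - z ^ 2 * (A z - e z)) / (D z) ^ 2 - A z - e z with hR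
  have cR : ContinuousAt R 0 := by
    refine ((ContinuousAt.div ?_ (cD.pow 2) (by simp [D0])).sub cA).sub ce
    exact ((cA.sub ce).sub ((cid.mul (ce1.add cA1)).div_const 2)).mul
      ((continuousAt_const.sub (((cid.pow 3).mul (ce1.add cA1)).div_const 2)).sub
        ((cid.pow 2).mul (cA.sub ce)))
  have R0 : R 0 = L.weierstrassP w := by
    simp only [hR, D0, e0, A0]
    ring
  have hDne : ∀ᶠ z in 𝓝[≠] (0 : ℂ), D z ≠ 0 := by
    have : ∀ᶠ z in 𝓝 (0 : ℂ), D z ≠ 0 := cD.eventually_ne (by rw [D0]; norm_num)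
    exact this.filter_mono nhdsWithin_le_nhds
  have hev : ∀ᶠ z in 𝓝[≠] (0 : ℂ), R z = hfun L w z := by
    filter_upwards [hDne, self_mem_nhdsWithin] with z hz1 hz0
    have hz0' : z ≠ 0 := hz0
    have h1 : L.weierstrassP z = 1 / z ^ 2 + e z := by
      have := L.weierstrassPExcept_def 0 z
      simp only [ZeroMemClass.coe_zero, sub_zero] at this
      rw [he, this]
      simp
    have h2 : L.derivWeierstrassP z = -2 / z ^ 3 + e1 z := by
      have := L.derivWeierstrassPExcept_def 0 z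
      simp only [ZeroMemClass.coe_zero, sub_zero] at this
      rw [he1, this]
      ring
    have := hfun_limit_algebra (z := z) (A := A z) (A1 := A1 z) (e := e z) (e1 := e1 z) hz0' hz1
    simp only [hfun, slopeS, h1, h2]
    exact this.symm
  have := (cR.tendsto.mono_left (nhdsWithin_le_nhds (s := {0}ᶜ))).congr' hev
  rwa [R0] at this

end Fermat.Agent.Lib.Unif

end
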